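/-
S25 package VALSEP, piece DENOMINATORS (helper2750).

On the frozen interface `Fermat/Agent/S25/Defs.lean` (helper5425).  Bridge from the relational
base change `IsBC` (universal property) along `V → K = Frac V` to honest morphisms over `V`:

* `span_range_j₁/₂`   : the image of `j_i` spans the base-changed chart module;
* `j₁_injective/j₂_injective` : `j_i` is injective for flat chart modules when `ψ_i` is injective;
* `j₁₂_injective_of_j₁` : injectivity on the overlap follows from chart 1;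
* `exists_smul_eq_j₁/₂` : every element of the `K`-module is `c⁻¹ • j(x)` (clearing denominators);
* `exists_hom_of_hom` : a morphism `α : M → M'` over `K` between base changes of `L`, `L'`
  (chart modules of `L` finite, `j'_i` injective) is `c⁻¹ •` (the base change of a morphism
  `s : L → L'` over `V`);
* `exists_hom_pair` : **both directions at once**: line bundles `L`, `L'` over `𝒞.chart V` whose base
  changes to `K` are isomorphic admit `s : L → L'`, `t : L' → L` and `c ≠ 0` in `V` with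
  `t ∘ s = c`, `s ∘ t = c` on both charts (input of the chart lemma in helper8911's short proof
  of `valuative_separated`).  No valuation-ring hypothesis is used here (`V` any domain).
-/
import Fermat.Agent.S25.Defs

set_option autoImplicit false
set_option linter.unusedSectionVars false

universe u

namespace Fermat.Agent.S25.VALSEP.H2750

open Fermat.Agent.S25 GluedModule

open scoped TensorProduct

section general

variable {R R' : Type u} [CommRing R] [CommRing R'] {φ : R →+* R'}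
  {𝔹 : TwoChart R} {𝔹' : TwoChart R'} {Ψ : TwoChart.Hom φ 𝔹 𝔹'}
  {N : GluedModule 𝔹} {N' : GluedModule 𝔹'}

/-- The image of `j₁` generates the base change. -/
theorem span_range_j₁ (D : BaseChangeData Ψ N N') :
    Submodule.span 𝔹'.B₁ (Set.range D.j₁) = ⊤ := by
  set S := Submodule.span 𝔹'.B₁ (Set.range D.j₁) with hS
  obtain ⟨h', -, huniq⟩ := D.univ₁ (N'.N₁ ⧸ S) (0 : N.N₁ →+ N'.N₁ ⧸ S) (by intro b n; simp)
  have h1 : S.mkQ = h' := huniq S.mkQ (fun n => by
    rw [AddMonoidHom.zero_apply, Submodule.mkQ_apply, Submodule.Quotient.mk_eq_zero]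
    exact Submodule.subset_span ⟨n, rfl⟩)
  have h2 : (0 : N'.N₁ →ₗ[𝔹'.B₁] N'.N₁ ⧸ S) = h' := huniq 0 (fun n => by simp)
  have h3 : S.mkQ = 0 := h1.trans h2.symm
  rw [← Submodule.ker_mkQ S, h3, LinearMap.ker_zero]

/-- The image of `j₂` generates the base change. -/
theorem span_range_j₂ (D : BaseChangeData Ψ N N') :
    Submodule.span 𝔹'.B₂ (Set.range D.j₂) = ⊤ := by
  set S := Submodule.span 𝔹'.B₂ (Set.range D.j₂) with hS
  obtain ⟨h', -, huniq⟩ := D.univ₂ (N'.N₂ ⧸ S) (0 : N.N₂ →+ N'.N₂ ⧸ S) (by intro b n; simp)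
  have h1 : S.mkQ = h' := huniq S.mkQ (fun n => by
    rw [AddMonoidHom.zero_apply, Submodule.mkQ_apply, Submodule.Quotient.mk_eq_zero]
    exact Submodule.subset_span ⟨n, rfl⟩)
  have h2 : (0 : N'.N₂ →ₗ[𝔹'.B₂] N'.N₂ ⧸ S) = h' := huniq 0 (fun n => by simp)
  have h3 : S.mkQ = 0 := h1.trans h2.symm
  rw [← Submodule.ker_mkQ S, h3, LinearMap.ker_zero]

/-- `j₁` is semilinear over the base rings. -/
theorem j₁_smul_base (D : BaseChangeData Ψ N N') (c : R) (n : N.N₁) :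
    D.j₁ (c • n) = φ c • D.j₁ n := by
  rw [← algebraMap_smul 𝔹.B₁ c n, D.j₁_smul, Ψ.alg₁, algebraMap_smul]

/-- `j₂` is semilinear over the base rings. -/
theorem j₂_smul_base (D : BaseChangeData Ψ N N') (c : R) (n : N.N₂) :
    D.j₂ (c • n) = φ c • D.j₂ n := by
  rw [← algebraMap_smul 𝔹.B₂ c n, D.j₂_smul, Ψ.alg₂, algebraMap_smul]

/-- An abstract injectivity criterion: the universal property of a base change of a flat
module along an injective ring map forces the structure map to be injective. -/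
theorem injective_of_univ {B B' : Type u} [CommRing B] [CommRing B'] (ψ : B →+* B')
    (hψ : Function.Injective ψ) {P P' : Type u} [AddCommGroup P] [Module B P] [Module.Flat B P]
    [AddCommGroup P'] [Module B' P'] (j : P →+ P')
    (univ : ∀ (Q : Type u) [AddCommGroup Q] [Module B' Q] (h : P →+ Q),
      (∀ (b : B) (n : P), h (b • n) = ψ b • h n) →
        ∃! h' : P' →ₗ[B'] Q, ∀ n, h' (j n) = h n) :
    Function.Injective j := by
  let _ : Algebra B B' := ψ.toAlgebra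
  have hψ' : Function.Injective (Algebra.linearMap B B') := hψ
  have hinj : Function.Injective ((Algebra.linearMap B B').rTensor P) :=
    Module.Flat.rTensor_preserves_injective_linearMap _ hψ'
  let h : P →+ B' ⊗[B] P :=
    (((Algebra.linearMap B B').rTensor P).comp (TensorProduct.lid B P).symm.toLinearMap
      ).toAddMonoidHom
  have hh : ∀ x : P, h x = (1 : B') ⊗ₜ[B] x := by
    intro x
    change ((Algebra.linearMap B B').rTensor P) ((TensorProduct.lid B P).symm x) = _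
    rw [TensorProduct.lid_symm_apply, LinearMap.rTensor_tmul, Algebra.linearMap_apply, map_one]
  have hhinj : Function.Injective h := hinj.comp (TensorProduct.lid B P).symm.injective
  obtain ⟨h', hh', -⟩ := univ (B' ⊗[B] P) h (by
    intro b n
    rw [hh, hh, TensorProduct.smul_tmul', ← TensorProduct.smul_tmul, smul_eq_mul, mul_one,
      Algebra.smul_def, mul_one]
    rfl)
  intro x y hxy
  apply hhinj
  rw [← hh', ← hh', hxy]

theorem j₁_injective (D : BaseChangeData Ψ N N') [Module.Flat 𝔹.B₁ N.N₁]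
    (hψ : Function.Injective Ψ.ψ₁) : Function.Injective D.j₁ :=
  injective_of_univ Ψ.ψ₁ hψ D.j₁ D.univ₁

theorem j₂_injective (D : BaseChangeData Ψ N N') [Module.Flat 𝔹.B₂ N.N₂]
    (hψ : Function.Injective Ψ.ψ₂) : Function.Injective D.j₂ :=
  injective_of_univ Ψ.ψ₂ hψ D.j₂ D.univ₂

/-- Injectivity of `j₁₂` on the overlap follows from injectivity on the first chart. -/
theorem j₁₂_injective_of_j₁ (D : BaseChangeData Ψ N N') (h : Function.Injective D.j₁) :
    Function.Injective D.j₁₂ := by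
  rw [injective_iff_map_eq_zero]
  intro z hz
  obtain ⟨x, m, rfl⟩ := N.surj₁ z
  have hfg' : 𝔹'.r₁ 𝔹'.f * 𝔹'.r₂ 𝔹'.g = 1 := 𝔹'.fg
  have hfg : 𝔹.r₁ 𝔹.f * 𝔹.r₂ 𝔹.g = 1 := 𝔹.fg
  rw [D.j₁₂_smul, D.comm₁, map_pow, Ψ.comm₂, Ψ.map_g] at hz
  -- `N'.ι₁ (j₁ x) = 0`
  have h1 : N'.ι₁ (D.j₁ x) = 0 := by
    have := congrArg (fun w => 𝔹'.r₁ 𝔹'.f ^ m • w) hz
    simp only [smul_zero, ← mul_smul, ← mul_pow, hfg', one_pow, one_smul] at this
    exact this
  obtain ⟨a, ha⟩ := N'.ker₁ _ h1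
  have h2 : D.j₁ (𝔹.f ^ a • x) = 0 := by
    rw [D.j₁_smul, map_pow, Ψ.map_f, ha]
  have h3 : 𝔹.f ^ a • x = 0 := h (h2.trans (map_zero _).symm)
  have h4 : N.ι₁ x = 0 := by
    have := congrArg N.ι₁ h3
    rw [N.ι₁_smul, map_zero, map_pow] at this
    have := congrArg (fun w => 𝔹.r₂ 𝔹.g ^ a • w) this
    simp only [smul_zero, ← mul_smul, ← mul_pow, mul_comm (𝔹.r₂ 𝔹.g), hfg, one_pow,
      one_smul] at this
    exact this
  rw [h4, smul_zero]

/-- Morphisms of glued modules are linear over the base ring (chart 1). -/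
theorem Hom_φ₁_smul_base {N N₀ : GluedModule 𝔹} (α : GluedModule.Hom N N₀) (c : R) (n : N.N₁) :
    α.φ₁ (c • n) = c • α.φ₁ n := by
  rw [← algebraMap_smul 𝔹.B₁ c n, map_smul, algebraMap_smul]

/-- Morphisms of glued modules are linear over the base ring (chart 2). -/
theorem Hom_φ₂_smul_base {N N₀ : GluedModule 𝔹} (α : GluedModule.Hom N N₀) (c : R) (n : N.N₂) :
    α.φ₂ (c • n) = c • α.φ₂ n := by
  rw [← algebraMap_smul 𝔹.B₂ c n, map_smul, algebraMap_smul]

/-- Morphisms of glued modules are linear over the base ring (overlap). -/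
theorem Hom_φ₁₂_smul_base {N N₀ : GluedModule 𝔹} (α : GluedModule.Hom N N₀) (c : R)
    (n : N.N₁₂) : α.φ₁₂ (c • n) = c • α.φ₁₂ n := by
  rw [← algebraMap_smul 𝔹.B₁₂ c n, map_smul, algebraMap_smul]

/-- Descending a semilinear map along an injective semilinear map whose image contains it. -/
theorem exists_linearMap_of_range {B B' : Type*} [CommRing B] [CommRing B'] (ψ : B →+* B')
    {P P' Q' : Type*} [AddCommGroup P] [AddCommGroup P'] [AddCommGroup Q'] [Module B P]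
    [Module B P'] [Module B' Q'] (j' : P' →+ Q') (hj'smul : ∀ b x, j' (b • x) = ψ b • j' x)
    (hj'inj : Function.Injective j') (g : P → Q') (hgadd : ∀ x y, g (x + y) = g x + g y)
    (hgsmul : ∀ b x, g (b • x) = ψ b • g x) (hg : ∀ x, ∃ y, j' y = g x) :
    ∃ s : P →ₗ[B] P', ∀ x, j' (s x) = g x := by
  choose s hs using hg
  refine ⟨{ toFun := s, map_add' := ?_, map_smul' := ?_ }, hs⟩
  · intro x y
    apply hj'inj
    rw [map_add, hs, hs, hs, hgadd]
  · intro b x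
    apply hj'inj
    simp only [RingHom.id_apply]
    rw [hj'smul, hs, hs, hgsmul]

end general

section chart

variable {k : Type u} [Field k] (𝒞 : CurveData k)

/-- The chart maps of a base change along an injective map are injective (chart 1). -/
theorem chartHom_ψ₁_injective {R R' : Type u} [CommRing R] [Algebra k R] [CommRing R']
    [Algebra k R'] (φ : R →ₐ[k] R') (hφ : Function.Injective φ) :
    Function.Injective (𝒞.chartHom φ).ψ₁ := by
  have h := Module.Flat.rTensor_preserves_injective_linearMap (M := 𝒞.A₁) φ.toLinearMap hφ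
  have e : ∀ x, (𝒞.chartHom φ).ψ₁ x = LinearMap.rTensor 𝒞.A₁ φ.toLinearMap x := by
    intro x
    change Algebra.TensorProduct.map φ (AlgHom.id k 𝒞.A₁) x = _
    induction x using TensorProduct.induction_on with
    | zero => simp
    | tmul a b => simp
    | add x y hx hy => simp only [map_add, hx, hy]
  intro x y hxy
  apply h
  rw [← e, ← e, hxy]

/-- The chart maps of a base change along an injective map are injective (chart 2). -/
theorem chartHom_ψ₂_injective {R R' : Type u} [CommRing R] [Algebra k R] [CommRing R']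
    [Algebra k R'] (φ : R →ₐ[k] R') (hφ : Function.Injective φ) :
    Function.Injective (𝒞.chartHom φ).ψ₂ := by
  have h := Module.Flat.rTensor_preserves_injective_linearMap (M := 𝒞.A₂) φ.toLinearMap hφ
  have e : ∀ x, (𝒞.chartHom φ).ψ₂ x = LinearMap.rTensor 𝒞.A₂ φ.toLinearMap x := by
    intro x
    change Algebra.TensorProduct.map φ (AlgHom.id k 𝒞.A₂) x = _
    induction x using TensorProduct.induction_on with
    | zero => simp
    | tmul a b => simp
    | add x y hx hy => simp only [map_add, hx, hy]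
  intro x y hxy
  apply h
  rw [← e, ← e, hxy]

variable (V : Type u) [CommRing V] [IsDomain V] [Algebra k V] (K : Type u) [Field K]
  [Algebra V K] [IsFractionRing V K] [Algebra k K] [IsScalarTower k V K]

/-- Common denominators in `K ⊗[k] A`. -/
theorem exists_smul_eq_map (A : Type u) [CommRing A] [Algebra k A] (b' : K ⊗[k] A) :
    ∃ (c : V) (b : V ⊗[k] A), c ≠ 0 ∧ algebraMap V K c • b' =
      Algebra.TensorProduct.map (IsScalarTower.toAlgHom k V K) (AlgHom.id k A) b := by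
  induction b' using TensorProduct.induction_on with
  | zero => exact ⟨1, 0, one_ne_zero, by simp⟩
  | tmul x a =>
    obtain ⟨v, c, hc, rfl⟩ := IsFractionRing.div_surjective (A := V) x
    have hc0 : c ≠ 0 := nonZeroDivisors.ne_zero hc
    have hc0' : algebraMap V K c ≠ 0 := by
      rwa [Ne, map_eq_zero_iff _ (IsFractionRing.injective V K)]
    refine ⟨c, v ⊗ₜ[k] a, hc0, ?_⟩
    rw [TensorProduct.smul_tmul', smul_eq_mul, mul_div_cancel₀ _ hc0',
      Algebra.TensorProduct.map_tmul]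
    rfl
  | add x y hx hy =>
    obtain ⟨c₁, b₁, h₁, e₁⟩ := hx
    obtain ⟨c₂, b₂, h₂, e₂⟩ := hy
    refine ⟨c₁ * c₂, (c₂ ⊗ₜ[k] (1 : A)) * b₁ + (c₁ ⊗ₜ[k] (1 : A)) * b₂, mul_ne_zero h₁ h₂, ?_⟩
    have key : ∀ (c : V) (b : V ⊗[k] A),
        Algebra.TensorProduct.map (IsScalarTower.toAlgHom k V K) (AlgHom.id k A)
          ((c ⊗ₜ[k] (1 : A)) * b) = algebraMap V K c •
            Algebra.TensorProduct.map (IsScalarTower.toAlgHom k V K) (AlgHom.id k A) b := by
      intro c b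
      rw [map_mul, Algebra.TensorProduct.map_tmul, Algebra.smul_def]
      rfl
    rw [map_add, key, key, ← e₁, ← e₂, smul_add, smul_smul, smul_smul, map_mul,
      mul_comm (algebraMap V K c₂)]

variable {V K}
variable {L : GluedModule (𝒞.chart V)} {M : GluedModule (𝒞.chart K)}

/-- Clearing denominators on chart 1. -/
theorem exists_smul_eq_j₁
    (D : BaseChangeData (𝒞.chartHom (IsScalarTower.toAlgHom k V K)) L M) (m : M.N₁) :
    ∃ (c : V) (x : L.N₁), c ≠ 0 ∧ algebraMap V K c • m = D.j₁ x := by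
  have hm : m ∈ Submodule.span (𝒞.chart K).B₁ (Set.range D.j₁) := by
    rw [span_range_j₁ D]; trivial
  induction hm using Submodule.span_induction with
  | mem m hm =>
    obtain ⟨x, rfl⟩ := hm
    exact ⟨1, x, one_ne_zero, by rw [map_one, one_smul]⟩
  | zero => exact ⟨1, 0, one_ne_zero, by rw [map_zero, smul_zero]⟩
  | add m₁ m₂ _ _ h₁ h₂ =>
    obtain ⟨c₁, x₁, hc₁, e₁⟩ := h₁
    obtain ⟨c₂, x₂, hc₂, e₂⟩ := h₂
    refine ⟨c₁ * c₂, c₂ • x₁ + c₁ • x₂, mul_ne_zero hc₁ hc₂, ?_⟩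
    rw [map_add, j₁_smul_base, j₁_smul_base, ← e₁, ← e₂, smul_add, map_mul]
    simp only [IsScalarTower.coe_toAlgHom, smul_smul]
    rw [mul_comm (algebraMap V K c₂)]
  | smul b' m _ h =>
    obtain ⟨c, x, hc, e⟩ := h
    obtain ⟨c₀, b, hc₀, e₀⟩ := exists_smul_eq_map V K 𝒞.A₁ b'
    refine ⟨c₀ * c, (show (𝒞.chart V).B₁ from b) • x, mul_ne_zero hc₀ hc, ?_⟩
    rw [D.j₁_smul, ← e]
    have : (𝒞.chartHom (IsScalarTower.toAlgHom k V K)).ψ₁ b = algebraMap V K c₀ • b' := e₀.symm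
    rw [this, map_mul, mul_smul, smul_comm (algebraMap V K c) b' m, smul_assoc]

/-- Clearing denominators on chart 2. -/
theorem exists_smul_eq_j₂
    (D : BaseChangeData (𝒞.chartHom (IsScalarTower.toAlgHom k V K)) L M) (m : M.N₂) :
    ∃ (c : V) (x : L.N₂), c ≠ 0 ∧ algebraMap V K c • m = D.j₂ x := by
  have hm : m ∈ Submodule.span (𝒞.chart K).B₂ (Set.range D.j₂) := by
    rw [span_range_j₂ D]; trivial
  induction hm using Submodule.span_induction with
  | mem m hm =>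
    obtain ⟨x, rfl⟩ := hm
    exact ⟨1, x, one_ne_zero, by rw [map_one, one_smul]⟩
  | zero => exact ⟨1, 0, one_ne_zero, by rw [map_zero, smul_zero]⟩
  | add m₁ m₂ _ _ h₁ h₂ =>
    obtain ⟨c₁, x₁, hc₁, e₁⟩ := h₁
    obtain ⟨c₂, x₂, hc₂, e₂⟩ := h₂
    refine ⟨c₁ * c₂, c₂ • x₁ + c₁ • x₂, mul_ne_zero hc₁ hc₂, ?_⟩
    rw [map_add, j₂_smul_base, j₂_smul_base, ← e₁, ← e₂, smul_add, map_mul]
    simp only [IsScalarTower.coe_toAlgHom, smul_smul]
    rw [mul_comm (algebraMap V K c₂)]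
  | smul b' m _ h =>
    obtain ⟨c, x, hc, e⟩ := h
    obtain ⟨c₀, b, hc₀, e₀⟩ := exists_smul_eq_map V K 𝒞.A₂ b'
    refine ⟨c₀ * c, (show (𝒞.chart V).B₂ from b) • x, mul_ne_zero hc₀ hc, ?_⟩
    rw [D.j₂_smul, ← e]
    have : (𝒞.chartHom (IsScalarTower.toAlgHom k V K)).ψ₂ b = algebraMap V K c₀ • b' := e₀.symm
    rw [this, map_mul, mul_smul, smul_comm (algebraMap V K c) b' m, smul_assoc]

variable {L' : GluedModule (𝒞.chart V)} {M' : GluedModule (𝒞.chart K)}

/-- The submodule of `L.N₁` on which `c • α ∘ j₁` lands in the image of `j'₁`. -/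
def denSub₁ (D : BaseChangeData (𝒞.chartHom (IsScalarTower.toAlgHom k V K)) L M)
    (D' : BaseChangeData (𝒞.chartHom (IsScalarTower.toAlgHom k V K)) L' M')
    (α : GluedModule.Hom M M') (c : V) : Submodule (𝒞.chart V).B₁ L.N₁ where
  carrier := {x | ∃ y, D'.j₁ y = algebraMap V K c • α.φ₁ (D.j₁ x)}
  add_mem' := by
    rintro x₁ x₂ ⟨y₁, h₁⟩ ⟨y₂, h₂⟩
    exact ⟨y₁ + y₂, by rw [map_add, h₁, h₂, map_add, map_add, smul_add]⟩
  zero_mem' := ⟨0, by simp⟩
  smul_mem' := by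
    rintro b x ⟨y, h⟩
    refine ⟨b • y, ?_⟩
    rw [D'.j₁_smul, h, D.j₁_smul, map_smul, smul_comm]

/-- The submodule of `L.N₂` on which `c • α ∘ j₂` lands in the image of `j'₂`. -/
def denSub₂ (D : BaseChangeData (𝒞.chartHom (IsScalarTower.toAlgHom k V K)) L M)
    (D' : BaseChangeData (𝒞.chartHom (IsScalarTower.toAlgHom k V K)) L' M')
    (α : GluedModule.Hom M M') (c : V) : Submodule (𝒞.chart V).B₂ L.N₂ where
  carrier := {x | ∃ y, D'.j₂ y = algebraMap V K c • α.φ₂ (D.j₂ x)}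
  add_mem' := by
    rintro x₁ x₂ ⟨y₁, h₁⟩ ⟨y₂, h₂⟩
    exact ⟨y₁ + y₂, by rw [map_add, h₁, h₂, map_add, map_add, smul_add]⟩
  zero_mem' := ⟨0, by simp⟩
  smul_mem' := by
    rintro b x ⟨y, h⟩
    refine ⟨b • y, ?_⟩
    rw [D'.j₂_smul, h, D.j₂_smul, map_smul, smul_comm]

theorem mem_denSub₁_mul (D : BaseChangeData (𝒞.chartHom (IsScalarTower.toAlgHom k V K)) L M)
    (D' : BaseChangeData (𝒞.chartHom (IsScalarTower.toAlgHom k V K)) L' M')
    (α : GluedModule.Hom M M') (c c' : V) {x : L.N₁} (hx : x ∈ denSub₁ 𝒞 D D' α c) :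
    x ∈ denSub₁ 𝒞 D D' α (c' * c) := by
  obtain ⟨y, h⟩ := hx
  refine ⟨c' • y, ?_⟩
  rw [j₁_smul_base, h, map_mul, mul_smul]
  rfl

theorem mem_denSub₂_mul (D : BaseChangeData (𝒞.chartHom (IsScalarTower.toAlgHom k V K)) L M)
    (D' : BaseChangeData (𝒞.chartHom (IsScalarTower.toAlgHom k V K)) L' M')
    (α : GluedModule.Hom M M') (c c' : V) {x : L.N₂} (hx : x ∈ denSub₂ 𝒞 D D' α c) :
    x ∈ denSub₂ 𝒞 D D' α (c' * c) := by
  obtain ⟨y, h⟩ := hx
  refine ⟨c' • y, ?_⟩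
  rw [j₂_smul_base, h, map_mul, mul_smul]
  rfl

theorem exists_denSub₁_eq_top [Module.Finite (𝒞.chart V).B₁ L.N₁]
    (D : BaseChangeData (𝒞.chartHom (IsScalarTower.toAlgHom k V K)) L M)
    (D' : BaseChangeData (𝒞.chartHom (IsScalarTower.toAlgHom k V K)) L' M')
    (α : GluedModule.Hom M M') : ∃ c : V, c ≠ 0 ∧ denSub₁ 𝒞 D D' α c = ⊤ := by
  classical
  obtain ⟨S, hS⟩ := (Module.Finite.fg_top : (⊤ : Submodule (𝒞.chart V).B₁ L.N₁).FG)
  choose cf yf hcf hyf using fun e : L.N₁ => exists_smul_eq_j₁ 𝒞 D' (α.φ₁ (D.j₁ e))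
  refine ⟨∏ e ∈ S, cf e, Finset.prod_ne_zero_iff.mpr (fun e _ => hcf e), ?_⟩
  rw [eq_top_iff, ← hS, Submodule.span_le]
  intro e he
  rw [← Finset.mul_prod_erase S cf he, mul_comm]
  exact mem_denSub₁_mul 𝒞 D D' α _ _ ⟨yf e, (hyf e).symm⟩

theorem exists_denSub₂_eq_top [Module.Finite (𝒞.chart V).B₂ L.N₂]
    (D : BaseChangeData (𝒞.chartHom (IsScalarTower.toAlgHom k V K)) L M)
    (D' : BaseChangeData (𝒞.chartHom (IsScalarTower.toAlgHom k V K)) L' M')
    (α : GluedModule.Hom M M') : ∃ c : V, c ≠ 0 ∧ denSub₂ 𝒞 D D' α c = ⊤ := by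
  classical
  obtain ⟨S, hS⟩ := (Module.Finite.fg_top : (⊤ : Submodule (𝒞.chart V).B₂ L.N₂).FG)
  choose cf yf hcf hyf using fun e : L.N₂ => exists_smul_eq_j₂ 𝒞 D' (α.φ₂ (D.j₂ e))
  refine ⟨∏ e ∈ S, cf e, Finset.prod_ne_zero_iff.mpr (fun e _ => hcf e), ?_⟩
  rw [eq_top_iff, ← hS, Submodule.span_le]
  intro e he
  rw [← Finset.mul_prod_erase S cf he, mul_comm]
  exact mem_denSub₂_mul 𝒞 D D' α _ _ ⟨yf e, (hyf e).symm⟩

/-- On the overlap the denominators of chart 1 suffice. -/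
theorem exists_j₁₂_eq (D : BaseChangeData (𝒞.chartHom (IsScalarTower.toAlgHom k V K)) L M)
    (D' : BaseChangeData (𝒞.chartHom (IsScalarTower.toAlgHom k V K)) L' M')
    (α : GluedModule.Hom M M') (c : V) (h : denSub₁ 𝒞 D D' α c = ⊤) (z : L.N₁₂) :
    ∃ w : L'.N₁₂, D'.j₁₂ w = algebraMap V K c • α.φ₁₂ (D.j₁₂ z) := by
  obtain ⟨x, m, rfl⟩ := L.surj₁ z
  obtain ⟨y, hy⟩ : x ∈ denSub₁ 𝒞 D D' α c := by rw [h]; trivial
  refine ⟨(𝒞.chart V).r₂ (𝒞.chart V).g ^ m • L'.ι₁ y, ?_⟩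
  rw [D'.j₁₂_smul, D'.comm₁, hy, D.j₁₂_smul, D.comm₁, map_smul, map_smul, α.comm₁, smul_comm]

/-- **Clearing denominators.**  A morphism over `K` between base changes of `L` and `L'` is,
up to a nonzero scalar of `V`, the base change of a morphism `L → L'`. -/
theorem exists_hom_of_hom [Module.Finite (𝒞.chart V).B₁ L.N₁] [Module.Finite (𝒞.chart V).B₂ L.N₂]
    (D : BaseChangeData (𝒞.chartHom (IsScalarTower.toAlgHom k V K)) L M)
    (D' : BaseChangeData (𝒞.chartHom (IsScalarTower.toAlgHom k V K)) L' M')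
    (hinj₁ : Function.Injective D'.j₁) (hinj₂ : Function.Injective D'.j₂)
    (α : GluedModule.Hom M M') :
    ∃ (c : V) (s : GluedModule.Hom L L'), c ≠ 0 ∧
      (∀ x, D'.j₁ (s.φ₁ x) = algebraMap V K c • α.φ₁ (D.j₁ x)) ∧
      (∀ x, D'.j₂ (s.φ₂ x) = algebraMap V K c • α.φ₂ (D.j₂ x)) := by
  obtain ⟨c₁, hc₁, h₁⟩ := exists_denSub₁_eq_top 𝒞 D D' α
  obtain ⟨c₂, hc₂, h₂⟩ := exists_denSub₂_eq_top 𝒞 D D' α
  have h₁' : denSub₁ 𝒞 D D' α (c₂ * c₁) = ⊤ := by
    rw [eq_top_iff]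
    intro x _
    exact mem_denSub₁_mul 𝒞 D D' α c₁ c₂ (by rw [h₁]; trivial)
  have h₂' : denSub₂ 𝒞 D D' α (c₂ * c₁) = ⊤ := by
    rw [eq_top_iff]
    intro x _
    rw [mul_comm]
    exact mem_denSub₂_mul 𝒞 D D' α c₂ c₁ (by rw [h₂]; trivial)
  have hinj₁₂ := j₁₂_injective_of_j₁ D' hinj₁
  obtain ⟨s₁, hs₁⟩ := exists_linearMap_of_range (𝒞.chartHom (IsScalarTower.toAlgHom k V K)).ψ₁
    D'.j₁ D'.j₁_smul hinj₁ (fun x => algebraMap V K (c₂ * c₁) • α.φ₁ (D.j₁ x))
    (fun x y => by simp only [map_add, smul_add])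
    (fun b x => by simp only [D.j₁_smul, map_smul]; rw [smul_comm])
    (fun x => by
      have hx : x ∈ denSub₁ 𝒞 D D' α (c₂ * c₁) := by rw [h₁']; trivial
      exact hx)
  obtain ⟨s₂, hs₂⟩ := exists_linearMap_of_range (𝒞.chartHom (IsScalarTower.toAlgHom k V K)).ψ₂
    D'.j₂ D'.j₂_smul hinj₂ (fun x => algebraMap V K (c₂ * c₁) • α.φ₂ (D.j₂ x))
    (fun x y => by simp only [map_add, smul_add])
    (fun b x => by simp only [D.j₂_smul, map_smul]; rw [smul_comm])
    (fun x => by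
      have hx : x ∈ denSub₂ 𝒞 D D' α (c₂ * c₁) := by rw [h₂']; trivial
      exact hx)
  obtain ⟨s₁₂, hs₁₂⟩ := exists_linearMap_of_range
    (𝒞.chartHom (IsScalarTower.toAlgHom k V K)).ψ₁₂
    D'.j₁₂ D'.j₁₂_smul hinj₁₂ (fun z => algebraMap V K (c₂ * c₁) • α.φ₁₂ (D.j₁₂ z))
    (fun x y => by simp only [map_add, smul_add])
    (fun b x => by simp only [D.j₁₂_smul, map_smul]; rw [smul_comm])
    (exists_j₁₂_eq 𝒞 D D' α (c₂ * c₁) h₁')
  refine ⟨c₂ * c₁, { φ₁ := s₁, φ₂ := s₂, φ₁₂ := s₁₂, comm₁ := ?_, comm₂ := ?_ },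
    mul_ne_zero hc₂ hc₁, hs₁, hs₂⟩
  · intro x
    apply hinj₁₂
    rw [hs₁₂, D.comm₁, α.comm₁, D'.comm₁, hs₁, map_smul]
  · intro x
    apply hinj₁₂
    rw [hs₁₂, D.comm₂, α.comm₂, D'.comm₂, hs₂, map_smul]

end chart

section pair

variable {k : Type u} [Field k] (𝒞 : CurveData k)
  {V : Type u} [CommRing V] [IsDomain V] [Algebra k V] {K : Type u} [Field K]
  [Algebra V K] [IsFractionRing V K] [Algebra k K] [IsScalarTower k V K]

/-- **Both directions of the generic isomorphism, denominators cleared.**  Line bundles `L`, `L'`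
over `𝒞.chart V` (`V` a domain with fraction field `K`) whose base changes to `K` are isomorphic
admit morphisms `s : L → L'`, `t : L' → L` and `c ≠ 0` in `V` with `t ∘ s = c` and `s ∘ t = c`
on both charts. -/
theorem exists_hom_pair (L L' : GluedModule (𝒞.chart V)) (hL : L.IsLineBundle)
    (hL' : L'.IsLineBundle) (M M' : GluedModule (𝒞.chart K))
    (hM : IsBC (𝒞.chartHom (IsScalarTower.toAlgHom k V K)) L M)
    (hM' : IsBC (𝒞.chartHom (IsScalarTower.toAlgHom k V K)) L' M')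
    (e : Nonempty (M.Iso M')) :
    ∃ (c : V) (s : GluedModule.Hom L L') (t : GluedModule.Hom L' L), c ≠ 0 ∧
      (∀ x, t.φ₁ (s.φ₁ x) = c • x) ∧ (∀ y, s.φ₁ (t.φ₁ y) = c • y) ∧
      (∀ x, t.φ₂ (s.φ₂ x) = c • x) ∧ (∀ y, s.φ₂ (t.φ₂ y) = c • y) := by
  obtain ⟨D⟩ := hM
  obtain ⟨D'⟩ := hM'
  obtain ⟨E⟩ := e
  have := hL.inv₁
  have := hL.inv₂
  have := hL'.inv₁
  have := hL'.inv₂
  have hφ : Function.Injective (IsScalarTower.toAlgHom k V K) := IsFractionRing.injective V K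
  have i₁ := j₁_injective D (chartHom_ψ₁_injective 𝒞 _ hφ)
  have i₂ := j₂_injective D (chartHom_ψ₂_injective 𝒞 _ hφ)
  have i₁' := j₁_injective D' (chartHom_ψ₁_injective 𝒞 _ hφ)
  have i₂' := j₂_injective D' (chartHom_ψ₂_injective 𝒞 _ hφ)
  obtain ⟨c₁, s, hc₁, hs₁, hs₂⟩ := exists_hom_of_hom 𝒞 D D' i₁' i₂' E.toHom
  obtain ⟨c₂, t, hc₂, ht₁, ht₂⟩ := exists_hom_of_hom 𝒞 D' D i₁ i₂ E.symm.toHom
  have e₁ : ∀ m, E.symm.toHom.φ₁ (E.toHom.φ₁ m) = m := fun m => E.e₁.symm_apply_apply m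
  have e₁' : ∀ m, E.toHom.φ₁ (E.symm.toHom.φ₁ m) = m := fun m => E.e₁.apply_symm_apply m
  have e₂ : ∀ m, E.symm.toHom.φ₂ (E.toHom.φ₂ m) = m := fun m => E.e₂.symm_apply_apply m
  have e₂' : ∀ m, E.toHom.φ₂ (E.symm.toHom.φ₂ m) = m := fun m => E.e₂.apply_symm_apply m
  refine ⟨c₂ * c₁, s, t, mul_ne_zero hc₂ hc₁, ?_, ?_, ?_, ?_⟩
  · intro x
    apply i₁
    rw [ht₁, hs₁, Hom_φ₁_smul_base, e₁, j₁_smul_base, map_mul, mul_smul]
    rfl
  · intro y
    apply i₁'
    rw [hs₁, ht₁, Hom_φ₁_smul_base, e₁', j₁_smul_base, map_mul, mul_smul, smul_comm]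
    rfl
  · intro x
    apply i₂
    rw [ht₂, hs₂, Hom_φ₂_smul_base, e₂, j₂_smul_base, map_mul, mul_smul]
    rfl
  · intro y
    apply i₂'
    rw [hs₂, ht₂, Hom_φ₂_smul_base, e₂', j₂_smul_base, map_mul, mul_smul, smul_comm]
    rfl

end pair

end Fermat.Agent.S25.VALSEP.H2750
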